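/-
S48 (Deligne-Serre), the WALL (W): mod-`ℓ` Galois representations of weight-one eigenforms.
Architect of (W): helper93.   DEFINITIONS ONLY (no theorems with content, no sorry).

The curve is `X₁(M)` (in the application `M = N ℓ`), in the model with RATIONAL `q`-expansions at
the cusp `∞` of width `1` (group `Γ₁(M) = {c ≡ 0, a ≡ d ≡ 1 mod M}`).

* `wpSeries M a` (`a : ZMod M`, `a ≠ 0`): the `q`-expansion of `12 ℘(a τ; ℤ M τ + ℤ) / (2 π i)²`,
      `1 - 24 Σ_n σ₁(n) q^{M n} + 12 Σ_n (Σ_{d ∣ n} ([d ≡ a] + [d ≡ -a]) (n / d)) q^n`   (`∈ ℤ[[q]]`);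
  it is a modular form of weight `2` on `Γ₁(M)`, and `⟨d⟩ wp_a = wp_{d⁻¹ a}` (sign conventions: see
  the blueprint).
* `fricke M a = E₄(q^M) E₆(q^M) wp_a(q) / Δ(q^M)`: the Fricke function (weight `0`, holomorphic on
  `ℍ`), up to a rational constant the `x`-coordinate of the point `a τ` of order `M` of
  `ℂ / (ℤ M τ + ℤ)` on the curve `y² = 4 x³ - c (x + 1)`, `c = 27 j_M / (j_M - 1728)`,
  multiplied by `j_M - 1728`.
* `FOne M = ℚ(j(q^d) (d ∣ M), fricke M a (a ≠ 0))`  `⊇ modularFunctionFieldFull M`.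
* `JOne M = Pic⁰ (ℚ̄ · FOne M)` with the coefficientwise action of `G_ℚ` (Prelude, generic).
* `heckeOne M p` (correspondence `α = inclusion`, `β = (q ↦ q^p)`, EXACTLY as the Prelude's
  `heckeOperatorBar`) and `diamondOne M d`.
-/
import Mathlib
import Fermat.Prelude.Def_ModularCurve_HeckeModule
import Fermat.Prelude.Def_GaloisRep_Residual

set_option autoImplicit false

noncomputable section

namespace Fermat.Agent.S48W

open ModularCurve AlgebraicCurve PowerSeries HahnSeries IntermediateField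

local notation "Kb" => AlgebraicClosure ℚ
local notation "GK" => (AlgebraicClosure ℚ ≃ₐ[ℚ] AlgebraicClosure ℚ)

/-! ### formal `q`-series -/

/-- `E₆ = 1 - 504 Σ σ₅(n) q^n`. -/
def eis6 : PowerSeries ℤ :=
  PowerSeries.mk fun n => if n = 0 then 1 else -504 * ∑ d ∈ n.divisors, (d : ℤ) ^ 5

/-- `E₄ E₆ / Δ = q⁻¹ (E₄ E₆ / Π (1 - q^n)^24)`, in `ℚ((q))`. -/
def eisQuot : LaurentSeries ℚ :=
  HahnSeries.single (-1 : ℤ) 1 *
    HahnSeries.ofPowerSeries ℤ ℚ
      ((eisenstein4 * eis6 * dedekindEtaUnitInv).map (Int.castRingHom ℚ))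

/-- the coefficients of `12 ℘(a τ; M τ, 1) / (2 π i)²`. -/
def wpCoeff (M : ℕ) (a : ZMod M) (n : ℕ) : ℤ :=
  (if n = 0 then 1 else 0)
    - 24 * (if n ≠ 0 ∧ M ∣ n then ∑ d ∈ (n / M).divisors, (d : ℤ) else 0)
    + 12 * ∑ d ∈ n.divisors,
        ((if ((d : ℕ) : ZMod M) = a then ((n / d : ℕ) : ℤ) else 0)
          + (if ((d : ℕ) : ZMod M) = -a then ((n / d : ℕ) : ℤ) else 0))

/-- `12 ℘(a τ; M τ, 1) / (2 π i)²` as a power series in `q`. -/
def wpSeries (M : ℕ) (a : ZMod M) : PowerSeries ℤ := PowerSeries.mk (wpCoeff M a)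

/-- the **Fricke function** `E₄(q^M) E₆(q^M) ℘_a(q) / Δ(q^M)`. -/
def fricke (M : ℕ) [NeZero M] (a : ZMod M) : LaurentSeries ℚ :=
  qExpand ℚ M eisQuot *
    HahnSeries.ofPowerSeries ℤ ℚ ((wpSeries M a).map (Int.castRingHom ℚ))

/-! ### the function field of `X₁(M)` -/

/-- the generators: `j(q^d)` (`d ∣ M`) and the Fricke functions. -/
def genOne (M : ℕ) [NeZero M] : Set (LaurentSeries ℚ) :=
  divisorExpansions M ∪ {x | ∃ a : ZMod M, a ≠ 0 ∧ x = fricke M a}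

/-- **the function field of `X₁(M)` over `ℚ`** (rational `q`-expansions at `∞`). -/
def FOne (M : ℕ) [NeZero M] : IntermediateField ℚ (LaurentSeries ℚ) :=
  IntermediateField.adjoin ℚ (genOne M)

theorem fricke_mem (M : ℕ) [NeZero M] {a : ZMod M} (ha : a ≠ 0) : fricke M a ∈ FOne M :=
  IntermediateField.subset_adjoin ℚ _ (Or.inr ⟨a, ha, rfl⟩)

theorem full_le_FOne (M : ℕ) [NeZero M] : modularFunctionFieldFull M ≤ FOne M :=
  IntermediateField.adjoin.mono ℚ _ _ Set.subset_union_left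

/-- the function field of `X₁(M)` over `ℚ̄`. -/
abbrev FOneBar (M : ℕ) [NeZero M] : IntermediateField Kb (LaurentSeries Kb) :=
  laurentBaseChange Kb (FOne M)

/-- **`J₁(M)(ℚ̄)`** `= Pic⁰` of the function field; `G_ℚ` acts coefficientwise on `q`-expansions
(Prelude instance for `Pic0 L (laurentBaseChange L F₀)`). -/
abbrev JOne (M : ℕ) [NeZero M] : Type := Pic0 Kb (FOneBar M)

/-- the `n`-torsion of `J₁(M)(ℚ̄)`. -/
abbrev JtorsOne (M n : ℕ) [NeZero M] : Submodule ℤ (JOne M) :=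
  Submodule.torsionBy ℤ (JOne M) (n : ℤ)

/-! ### the level `Γ₁(M) ∩ Γ₀(p)` and the Hecke correspondence -/

/-- the function field of `X(Γ₁(M) ∩ Γ₀(p))`: generated by `F₁(M)` and `F₁(M)(q^p)`. -/
def FOneP (M p : ℕ) [NeZero M] [NeZero p] : IntermediateField ℚ (LaurentSeries ℚ) :=
  IntermediateField.adjoin ℚ ((FOne M : Set (LaurentSeries ℚ)) ∪ (qExpand ℚ p '' (FOne M)))

theorem FOne_le_FOneP (M p : ℕ) [NeZero M] [NeZero p] : FOne M ≤ FOneP M p := fun _ hx =>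
  IntermediateField.subset_adjoin ℚ _ (Or.inl hx)

theorem qExpand_mem_FOneP (M p : ℕ) [NeZero M] [NeZero p] {x : LaurentSeries ℚ}
    (hx : x ∈ FOne M) : qExpand ℚ p x ∈ FOneP M p :=
  IntermediateField.subset_adjoin ℚ _ (Or.inr ⟨x, hx, rfl⟩)

end Fermat.Agent.S48W
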