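/-
S48 wall (W), architect helper93: INTERFACE PROPOSITIONS (definitions only, no sorry).
Every seat of (W) proves one of these `Prop`s or consumes them as hypotheses
(same method as cluster A, `Fermat/Agent/F3/Interfaces.lean`).  See NOTES/blueprint-S48-W.md.

CONVENTIONS (checked on `q`-expansions, see blueprint §2):
* `heckeOne M p` is the norm correspondence `f ↦ Norm_{F(M;p)/F₁(M)} (f(q^p))`;
* `diamondOne M d` is induced by the automorphism `fricke a ↦ fricke (d a)`;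
* Kronecker: `T_p f ≡ σ(δ_p f) · (σ⁻¹ f)^p`, hence on torsion  `σ² δ_p x - T_p σ x + p x = 0`;
* relative to the classical operators on forms these are `(T_p^*, ⟨p⟩⁻¹)`, so the system of an
  eigenform `g` of character `χ` is `T_p ↦ a_p χ(p)⁻¹`, `δ_d ↦ χ(d)⁻¹`.
-/
import Mathlib
import Fermat.Agent.S48.W.Hecke

set_option autoImplicit false

noncomputable section

namespace Fermat.Agent.S48W

open ModularCurve AlgebraicCurve CongruenceSubgroup
open scoped TensorProduct MatrixGroups ModularForm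

local notation "Kb" => AlgebraicClosure ℚ
local notation "GK" => (AlgebraicClosure ℚ ≃ₐ[ℚ] AlgebraicClosure ℚ)

/-! ### (G) Galois side: good reduction of `X₁(M)` at `p ∤ M` -/

/-- (IF-G1) inertia at `p ∤ M n` acts trivially on `J₁(M)[n]`. -/
def TorsionUnramifiedOne (M : ℕ) [NeZero M] : Prop :=
  ∀ (n p : ℕ), p.Prime → ¬ p ∣ M * n →
    ∀ A : ValuationSubring Kb, A.LiesOverPrime p →
      ∀ σ ∈ A.inertiaSubgroupIn ℚ, ∀ x : JOne M, n • x = 0 → σ • x = x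

/-- (IF-G2) Eichler-Shimura on `J₁(M)[n]`: `σ² δ_p x - T_p σ x + p x = 0` for a Frobenius `σ` at
`p ∤ M n`. -/
def TorsionFrobQuadraticOne (M : ℕ) [NeZero M] : Prop :=
  ∀ (n p : ℕ) (hp : p.Prime) (hpM : Nat.Coprime p M), ¬ p ∣ n →
    ∀ A : ValuationSubring Kb, A.LiesOverPrime p →
      ∀ σ : GK, A.IsFrobeniusAt σ p → ∀ x : JOne M, n • x = 0 →
        σ • σ • (diamondOne M (ZMod.unitOfCoprime p hpM) x)
          - heckeOne M ⟨p, hp⟩ (σ • x) + p • x = 0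

/-! ### (H) Hecke side: formal properties of the operators -/

/-- (IF-H1) the Hecke and diamond operators commute with the Galois action. -/
def HeckeGaloisCommOne (M : ℕ) [NeZero M] : Prop :=
  (∀ (p : Nat.Primes) (σ : GK) (x : JOne M), heckeOne M p (σ • x) = σ • heckeOne M p x) ∧
    ∀ (d : (ZMod M)ˣ) (σ : GK) (x : JOne M), diamondOne M d (σ • x) = σ • diamondOne M d x

/-- (IF-H2) the diamond operators form a group action commuting with the `T_p`. -/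
def DiamondActionOne (M : ℕ) [NeZero M] : Prop :=
  diamondOne M 1 = 1 ∧
    (∀ d e : (ZMod M)ˣ, diamondOne M (d * e) = diamondOne M d * diamondOne M e) ∧
    ∀ (d : (ZMod M)ˣ) (p : Nat.Primes), ¬ (p : ℕ) ∣ M →
      diamondOne M d * heckeOne M p = heckeOne M p * diamondOne M d

/-- (IF-H3) every torsion point of `J₁(M)(ℚ̄)` is fixed by an open subgroup of `G_ℚ`. -/
def TorsionOpenStabOne (M : ℕ) [NeZero M] : Prop :=
  ∀ n : ℕ, 0 < n → ∀ x : JOne M, n • x = 0 →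
    ∃ L : IntermediateField ℚ Kb, FiniteDimensional ℚ L ∧
      ∀ σ : GK, (∀ y ∈ L, σ y = y) → σ • x = x

/-! ### (A) analytic side: the eigen-class -/

/-- A weight-2 cusp form on `Γ₁(M)` with nebentypus `χ`, integral `q`-coefficients, which is an
eigenvector MODULO `ker φ` of the `T_p` (`p ∤ M`) with eigenvalues `t p`. -/
structure ModEigen (M : ℕ) [NeZero M] (k : Type) [Field k]
    (φ : integralClosure ℤ ℂ →+* k) where
  g : CuspForm (Gamma1 M) 2
  χ : (ZMod M)ˣ →* (integralClosure ℤ ℂ)ˣ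
  /-- nebentypus -/
  neb : ∀ γ : SL(2, ℤ), ∀ hγ : γ ∈ Gamma0 M, ∀ d : (ZMod M)ˣ, ((d : ZMod M) = ((γ 1 1 : ℤ) : ZMod M)) →
    ∀ z : UpperHalfPlane, ((g : UpperHalfPlane → ℂ) ∣[(2 : ℤ)] γ) z
      = (((χ d : (integralClosure ℤ ℂ)ˣ) : integralClosure ℤ ℂ) : ℂ) * g z
  /-- the `q`-coefficients -/
  c : ℕ → integralClosure ℤ ℂ
  hc : ∀ n, (c n : ℂ) = ModularFormClass.qCoeff g n
  /-- nonzero modulo `ker φ` -/
  ne : ∃ n, φ (c n) ≠ 0
  /-- the eigenvalues modulo `ker φ` -/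
  t : Nat.Primes → k
  eig : ∀ (p : Nat.Primes) (hpM : Nat.Coprime (p : ℕ) M) (n : ℕ),
    φ (c (p * n)) + ((p : ℕ) : k) * φ (χ (ZMod.unitOfCoprime p hpM) : integralClosure ℤ ℂ) *
        (if (p : ℕ) ∣ n then φ (c (n / p)) else 0) = t p * φ (c n)

/-- (IF-A) **mod-`ℓ` eigen-class**: the ADJOINT system of a mod-`φ` eigenvector `e` occurs in
`k ⊗ J₁(M)(ℚ̄)[ℓ]`: a nonzero class with `T_p x = t_p χ(p)⁻¹ x` (`p ∤ M ℓ`), `δ_d x = χ(d)⁻¹ x`. -/
def EigenclassOne (M : ℕ) [NeZero M] : Prop :=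
  ∀ (ℓ : ℕ), ℓ.Prime → ∀ (k : Type) [Field k] [CharP k ℓ] (φ : integralClosure ℤ ℂ →+* k)
    (e : ModEigen M k φ),
    ∃ x : k ⊗[ℤ] JtorsOne M ℓ, x ≠ 0 ∧
      (∀ (p : Nat.Primes) (hpM : Nat.Coprime (p : ℕ) M), (p : ℕ) ≠ ℓ →
        (heckeTorsOne M ℓ p).baseChange k x
          = (e.t p * φ ((e.χ (ZMod.unitOfCoprime p hpM))⁻¹ : (integralClosure ℤ ℂ)ˣ)) • x) ∧
      ∀ d : (ZMod M)ˣ, (diamondTorsOne M ℓ d).baseChange k x
          = φ ((e.χ d)⁻¹ : (integralClosure ℤ ℂ)ˣ) • x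

/-! ### (R) the residual representation at level `Γ₁(M)` -/

/-- (IF-R) "S29 for `Γ₁(M)` with character": a mod-`φ` eigenvector of level `M` has a residual
representation, unramified outside `M ℓ`, with
`charpoly(Frob_p) = X² - t_p X + p χ(p)` (`p ∤ M ℓ`). -/
def ResidualOne (M : ℕ) [NeZero M] : Prop :=
  ∀ (ℓ : ℕ), ℓ.Prime → ∀ (k : Type) [Field k] [CharP k ℓ] (φ : integralClosure ℤ ℂ →+* k)
    (e : ModEigen M k φ),
    ∃ ρ : ResidualGaloisRep k,
      (∀ p : ℕ, p.Prime → ¬ p ∣ M * ℓ → ρ.IsUnramifiedAt p) ∧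
      ∀ (p : Nat.Primes) (hpM : Nat.Coprime (p : ℕ) M), (p : ℕ) ≠ ℓ →
        ∀ A : ValuationSubring Kb, A.LiesOverPrime p →
          ∀ σ : GK, A.IsFrobeniusAt σ p →
            LinearMap.charpoly (ρ.ρ σ) = Polynomial.X ^ 2 - Polynomial.C (e.t p) * Polynomial.X
              + Polynomial.C (((p : ℕ) : k) *
                  φ (e.χ (ZMod.unitOfCoprime p hpM) : integralClosure ℤ ℂ))

/-! ### (W) the wall: the deliverable for the Deligne-Serre side -/

/-- **(W)**: a nonzero weight-one cusp form `f` on `Γ₁(N)` with nebentypus `ε`, algebraic integer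
`q`-coefficients in a number field, eigen for the `T_p` (`p ∤ N`, coefficient form, eigenvalues
`a p`) has for EVERY prime `ℓ ∤ 2 N` and every `φ : ℤ̄ → k`, `char k = ℓ`, a residual
representation unramified outside `N ℓ` with `charpoly(Frob_p) = X² - φ(a_p) X + φ(ε(p))`. -/
def WallStatement : Prop :=
  ∀ (N : ℕ) [NeZero N] (ε : (ZMod N)ˣ →* (integralClosure ℤ ℂ)ˣ)
    (f : CuspForm (Gamma1 N) 1) (c a : ℕ → integralClosure ℤ ℂ),
    (∀ n, (c n : ℂ) = ModularFormClass.qCoeff f n) →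
    (∃ n, c n ≠ 0) →
    (∃ K : IntermediateField ℚ ℂ, FiniteDimensional ℚ K ∧ ∀ n, (c n : ℂ) ∈ K) →
    (∀ γ : SL(2, ℤ), γ ∈ Gamma0 N → ∀ d : (ZMod N)ˣ, ((d : ZMod N) = ((γ 1 1 : ℤ) : ZMod N)) →
      ∀ z : UpperHalfPlane, ((f : UpperHalfPlane → ℂ) ∣[(1 : ℤ)] γ) z
        = (((ε d : (integralClosure ℤ ℂ)ˣ) : integralClosure ℤ ℂ) : ℂ) * f z) →
    (∀ (p : ℕ) (hp : p.Prime) (hpN : Nat.Coprime p N) (n : ℕ),
      c (p * n) + (ε (ZMod.unitOfCoprime p hpN) : integralClosure ℤ ℂ) *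
        (if p ∣ n then c (n / p) else 0) = a p * c n) →
    ∀ (ℓ : ℕ), ℓ.Prime → ¬ ℓ ∣ 2 * N →
      ∀ (k : Type) [Field k] [CharP k ℓ] (φ : integralClosure ℤ ℂ →+* k),
        ∃ ρ : ResidualGaloisRep k,
          (∀ p : ℕ, p.Prime → ¬ p ∣ N * ℓ → ρ.IsUnramifiedAt p) ∧
          ∀ (p : ℕ) (hp : p.Prime) (hpN : Nat.Coprime p N), p ≠ ℓ →
            ∀ A : ValuationSubring Kb, A.LiesOverPrime p →
              ∀ σ : GK, A.IsFrobeniusAt σ p →
                LinearMap.charpoly (ρ.ρ σ) = Polynomial.X ^ 2 - Polynomial.C (φ (a p)) * Polynomial.X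
                  + Polynomial.C (φ (ε (ZMod.unitOfCoprime p hpN) : integralClosure ℤ ℂ))

end Fermat.Agent.S48W
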