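/-
S48 wall (W), seat W-WIRE (helper93): the wall from block P in the form `ProductEigen` of
`S48/W/P/Defs.lean` (owner helper78) and the interface propositions of blocks G, H, A.
-/
import Mathlib
import Fermat.Agent.S48.W.P.Defs
import Fermat.Agent.S48.W.WallAsm

set_option autoImplicit false
set_option linter.style.haveILetI false

noncomputable section

namespace Fermat.Agent.S48W

open ModularCurve AlgebraicCurve CongruenceSubgroup
open scoped TensorProduct MatrixGroups ModularForm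

/-- **W-WIRE, levels `≥ ℓ₀`**: the wall for `ℓ ≥ ℓ₀` from `ProductEigen` and the residual
representations at the levels `M ≥ ℓ₀`. -/
theorem wallStatementFrom_of_productEigen (ℓ₀ : ℕ) (hP : ProductEigen)
    (hR : ∀ (M : ℕ) [NeZero M], ℓ₀ ≤ M → ResidualOne M) : WallStatementFrom ℓ₀ := by
  intro N _ ε f c a hc hne hK hneb hT ℓ hℓ hℓN hℓ₀ k _ _ φ
  obtain ⟨hNe, e, het, heχ⟩ := hP N ε f c a hc hne hK hneb hT ℓ hℓ hℓN k φ
  haveI : NeZero (N * ℓ) := hNe
  have hle : ℓ₀ ≤ N * ℓ := hℓ₀.trans (Nat.le_mul_of_pos_left ℓ (Nat.pos_of_ne_zero (NeZero.ne N)))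
  obtain ⟨ρ, hρ1, hρ2⟩ := hR (N * ℓ) hle ℓ hℓ k φ e
  refine ⟨ρ, fun p hp hpN => hρ1 p hp ?_, ?_⟩
  · intro hd
    rcases (Nat.Prime.dvd_mul hp).mp hd with h | h
    · exact hpN h
    · exact hpN (h.mul_left N)
  · intro p hp hpN hpℓ A hA σ hσ
    have hpℓ' : Nat.Coprime p ℓ := (Nat.coprime_primes hp hℓ).mpr hpℓ
    have hpM : Nat.Coprime p (N * ℓ) := Nat.Coprime.mul_right hpN hpℓ'
    have := hρ2 ⟨p, hp⟩ hpM hpℓ A hA σ hσ
    rw [this, het ⟨p, hp⟩ hpM]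
    have h2 := heχ ⟨p, hp⟩ hpM hpN
    simp only at h2
    rw [h2]

/-- **W-WIRE**: the wall for `ℓ ≥ ℓ₀` from `ProductEigen` and the interface propositions of blocks
G, H, A at the levels `M ≥ ℓ₀`. -/
theorem wallStatementFrom_of_productEigen_interfaces (ℓ₀ : ℕ) (hP : ProductEigen)
    (hU : ∀ (M : ℕ) [NeZero M], ℓ₀ ≤ M → TorsionUnramifiedOne M)
    (hQ : ∀ (M : ℕ) [NeZero M], ℓ₀ ≤ M → TorsionFrobQuadraticOne M)
    (hC : ∀ (M : ℕ) [NeZero M], ℓ₀ ≤ M → HeckeGaloisCommOne M)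
    (hE : ∀ (M : ℕ) [NeZero M], ℓ₀ ≤ M → EigenclassOne M) : WallStatementFrom ℓ₀ :=
  wallStatementFrom_of_productEigen ℓ₀ hP fun M _ hM =>
    Fermat.Agent.S48WR.residualOne_of_interfaces M (hU M hM) (hQ M hM) (hC M hM) (hE M hM)

end Fermat.Agent.S48W
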