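/-
S48 wall (W): THE FINAL WIRING (architect helper93).

`wallStatementFrom_of_leaves`: the wall `WallStatementFrom 5` from the deliverables of the
blocks that are still open, in the EXACT form in which their owners deliver them:

* `hIg : IgusaOneStatement`            (block G-RED, seat G-IGUSA: `x = j(q^M)` is a base function
                                        of the Gauss ring at every place over `p ∤ M`);
* `hGR : GoodRedOne M` at the levels `M` with `4 ∣ M` or `9 ∣ M`
                                       (block G-RED at `p ≥ 5`, block G-23 at `p = 3`, `4 ∣ M` and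
                                        at `p = 2`, `9 ∣ M`);
* `hNP : NormProductOne M` at these levels   (block G-PORT, seat P6 = Kronecker);
* `hE  : EigenclassOneAt M ℓ`                (block A).

Everything else (blocks P, H, R, the gluing of the levels `4 M`, `9 M`, G-PORT) is plugged in.
-/
import Mathlib
import Fermat.Agent.S48.W.G.P23.Glue.Lift
import Fermat.Agent.S48.W.G.Port.Final
import Fermat.Agent.S48.W.G.Red.Igusa.LeafDefs
import Fermat.Agent.S48.W.H.Top
import Fermat.Agent.S48.W.P.Final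

set_option autoImplicit false
set_option synthInstance.maxHeartbeats 400000
set_option linter.style.haveILetI false
set_option linter.unusedSectionVars false

noncomputable section

namespace Fermat.Agent.S48WFinal

open ModularCurve AlgebraicCurve IntermediateField Fermat.Agent.GaussInt Fermat.Agent.S48W
  Fermat.Agent.S48WG Fermat.Agent.S48WPort

local notation "Kb" => AlgebraicClosure ℚ

/-- `j(q^M)` over `ℚ̄` is the image of `j(q^M)` over `ℚ`. -/
theorem wf_coeffEmb_jqM (M : ℕ) [NeZero M] :
    coeffEmb Kb (qExpand ℚ M jq) = qExpand Kb M (jqModC Kb) := by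
  rw [coeffEmb_qExpand_w, ← jqModC_rat]
  exact congrArg _ (map_jqModC (algebraMap ℚ Kb))

/-- the base function `j(q^M)` of G-IGUSA gives the input of P5. -/
theorem diamondBaseOne_of_igusa (hIg : IgusaOneStatement) (M : ℕ) [NeZero M] (hM : 2 ≤ M) :
    DiamondBaseOne M := by
  intro p hp hpM A hA
  obtain ⟨x, hx, hxe, -, hfin, htr', -, -, hdeg⟩ := hIg M hM p hp hpM A hA
  refine ⟨x, hx, htr', hfin, hdeg, ?_⟩
  intro d δ hδ
  subst hxe
  have h := hδ.1 (qExpand ℚ M jq) (mem_divisorExpansions M dvd_rfl)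
    (by rw [wf_coeffEmb_jqM]; exact mem_of_mem_gaussSub hx)
  apply Subtype.ext
  have h' := congrArg Subtype.val h
  simp only [wf_coeffEmb_jqM] at h'
  convert h' using 2
  all_goals rfl

/-- **G-PORT at the levels of the gluing**: (IF-G1) and (IF-G2) at `ℓ`, from the deliverables of
G-IGUSA, G-RED/G-23 and Kronecker. -/
theorem gPort_of_leaves (hIg : IgusaOneStatement) (M : ℕ) [NeZero M] (hM : 2 ≤ M)
    (hGR : GoodRedOne M) (hNP : NormProductOne M) {ℓ : ℕ} (hℓ : ℓ.Prime) :
    TorsionUnramifiedOneAt M ℓ ∧ TorsionFrobQuadraticOneAt M ℓ :=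
  gPort_final_of_goodRedOne hℓ hGR (diamondBaseOne_of_igusa hIg M hM) hNP
    (fun p => heckeInputsOne_primes M p) (diamondExistsOne M)

/-- **THE WALL, from the open leaves.** -/
theorem wallStatementFrom_of_leaves (hIg : IgusaOneStatement)
    (hGR : ∀ (M : ℕ) [NeZero M], (4 ∣ M ∨ 9 ∣ M) → GoodRedOne M)
    (hNP : ∀ (M : ℕ) [NeZero M], (4 ∣ M ∨ 9 ∣ M) → NormProductOne M)
    (hE : ∀ (M : ℕ) [NeZero M] (ℓ : ℕ), ℓ.Prime → 5 ≤ ℓ → ℓ ∣ M → EigenclassOneAt M ℓ) :
    WallStatementFrom 5 := by
  have h2 : ∀ (M : ℕ) [NeZero M], (4 ∣ M ∨ 9 ∣ M) → 2 ≤ M := by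
    intro M _ h
    have hM : 0 < M := Nat.pos_of_ne_zero (NeZero.ne M)
    rcases h with h | h
    · have := Nat.le_of_dvd hM h; omega
    · have := Nat.le_of_dvd hM h; omega
  exact Fermat.Agent.S48WGlue.wallStatementFrom_of_at23' 5 productEigen
    (fun M _ ℓ hℓ _ _ h49 => (gPort_of_leaves hIg M (h2 M h49) (hGR M h49) (hNP M h49) hℓ).1)
    (fun M _ ℓ hℓ _ _ h49 => (gPort_of_leaves hIg M (h2 M h49) (hGR M h49) (hNP M h49) hℓ).2)
    (fun M _ _ => heckeGaloisCommOne_top M)
    hE

end Fermat.Agent.S48WFinal
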