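/-
S48 wall (W), architect helper93: the TOP of the wall.

Blocks P (product with the weight-one Eisenstein series; helper78, helper33, helper2, helper13,
helper7) and H (Hecke-Galois commutation; helper22) are proved; the wall for `ℓ ≥ ℓ₀` follows from
the interface propositions of blocks G and A at the pairs `(M, ℓ)`, `ℓ` prime, `ℓ₀ ≤ ℓ`, `ℓ ∣ M`.
-/
import Mathlib
import Fermat.Agent.S48.W.R.AsmAt
import Fermat.Agent.S48.W.P.Main
import Fermat.Agent.S48.Eis1.Final
import Fermat.Agent.S48.W.H.GaloisComm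

set_option autoImplicit false

noncomputable section

namespace Fermat.Agent.S48W

/-- **Block P**. -/
theorem productEigen_top : ProductEigen :=
  productEigen_of_eis1 Fermat.Agent.S48.Eis1.eis1Statement

/-- **Block P** (form `ProductEigenStatement`). -/
theorem productEigenStatement_top : ProductEigenStatement :=
  productEigenStatement_of_eis1 Fermat.Agent.S48.Eis1.eis1Statement

/-- **the wall from blocks G and A**: `WallStatementFrom ℓ₀` from the interface propositions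
IF-G1, IF-G2 (good reduction) and IF-A (eigen-class) at the pairs `(M, ℓ)` with `ℓ` prime,
`ℓ₀ ≤ ℓ`, `ℓ ∣ M`. -/
theorem wallStatementFrom_top (ℓ₀ : ℕ)
    (hU : ∀ (M : ℕ) [NeZero M] (ℓ : ℕ), ℓ.Prime → ℓ₀ ≤ ℓ → ℓ ∣ M → TorsionUnramifiedOneAt M ℓ)
    (hQ : ∀ (M : ℕ) [NeZero M] (ℓ : ℕ), ℓ.Prime → ℓ₀ ≤ ℓ → ℓ ∣ M → TorsionFrobQuadraticOneAt M ℓ)
    (hE : ∀ (M : ℕ) [NeZero M] (ℓ : ℕ), ℓ.Prime → ℓ₀ ≤ ℓ → ℓ ∣ M → EigenclassOneAt M ℓ) :
    WallStatementFrom ℓ₀ :=
  wallStatementFrom_of_at ℓ₀ productEigen_top hU hQ (fun M _ _ => Fermat.Agent.S48WH.heckeGaloisCommOne (M := M)) hE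

end Fermat.Agent.S48W
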